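/-
P-H1 (helper63): `H₁(X₀(N), ℤ) = Γ₀(N)^ab / ⟨parabolic, elliptic⟩` is torsion-free, hence
`#J₀(N)[m] = m ^ (2 g)` for every `m > 0`.

INTERFACES: definitions and `Prop`-valued statements only.

* `ekerTwo k σ`, `ekerThree k σ` : the spaces of functions `f : Q → k` with `f + f ∘ σ = 0`
  (resp. `f + f ∘ σ + f ∘ σ ∘ σ = 0`) which VANISH ON THE FIXED POINTS of `σ`.  Over a field of
  characteristic `≠ 2` (resp. `≠ 3`) the vanishing is automatic; imposing it makes the
  dimension `(#Q - #Fix σ) / 2` (resp. `2 (#Q - #Fix σ) / 3`) in EVERY characteristic.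
* `peHoms k N` : homomorphisms `Γ₀(N) → k` vanishing on all elements with `trace ^ 2 ≤ 4`
  (`±1`, elliptic, parabolic).
* `hgenus N = dim S₂(Γ₀(N))` (`= genusFormula N` by S20).
-/
import Mathlib
import Fermat.Prelude.Def_ModularCurve_PeriodMap
import Fermat.Agent.H94.EsA.Interfaces

set_option autoImplicit false

open CongruenceSubgroup Module
open scoped MatrixGroups

namespace Fermat.Agent.H63.H1

/-! ### Orbit dimension statements (Mathlib only) -/

section Orbit

variable (k : Type) [Field k] {Q : Type}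

/-- Functions with `f + f ∘ σ = 0` vanishing on the fixed points of `σ`. -/
def ekerTwo (σ : Q → Q) : Submodule k (Q → k) where
  carrier := {f | ∀ q, f q + f (σ q) = 0 ∧ (σ q = q → f q = 0)}
  zero_mem' := fun q => ⟨by simp, fun _ => rfl⟩
  add_mem' := by
    intro f g hf hg q
    refine ⟨?_, fun hq => ?_⟩
    · have h1 := (hf q).1
      have h2 := (hg q).1
      simp only [Pi.add_apply]
      linear_combination h1 + h2
    · simp only [Pi.add_apply]
      rw [(hf q).2 hq, (hg q).2 hq, add_zero]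
  smul_mem' := by
    intro c f hf q
    refine ⟨?_, fun hq => ?_⟩
    · have h1 := (hf q).1
      simp only [Pi.smul_apply, smul_eq_mul]
      linear_combination c * h1
    · simp only [Pi.smul_apply, smul_eq_mul]
      rw [(hf q).2 hq, mul_zero]

/-- Functions with `f + f ∘ σ + f ∘ σ ∘ σ = 0` vanishing on the fixed points of `σ`. -/
def ekerThree (σ : Q → Q) : Submodule k (Q → k) where
  carrier := {f | ∀ q, f q + f (σ q) + f (σ (σ q)) = 0 ∧ (σ q = q → f q = 0)}
  zero_mem' := fun q => ⟨by simp, fun _ => rfl⟩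
  add_mem' := by
    intro f g hf hg q
    refine ⟨?_, fun hq => ?_⟩
    · have h1 := (hf q).1
      have h2 := (hg q).1
      simp only [Pi.add_apply]
      linear_combination h1 + h2
    · simp only [Pi.add_apply]
      rw [(hf q).2 hq, (hg q).2 hq, add_zero]
  smul_mem' := by
    intro c f hf q
    refine ⟨?_, fun hq => ?_⟩
    · have h1 := (hf q).1
      simp only [Pi.smul_apply, smul_eq_mul]
      linear_combination c * h1
    · simp only [Pi.smul_apply, smul_eq_mul]
      rw [(hf q).2 hq, mul_zero]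

variable {k}

theorem mem_ekerTwo {σ : Q → Q} {f : Q → k} :
    f ∈ ekerTwo k σ ↔ ∀ q, f q + f (σ q) = 0 ∧ (σ q = q → f q = 0) := Iff.rfl

theorem mem_ekerThree {σ : Q → Q} {f : Q → k} :
    f ∈ ekerThree k σ ↔ ∀ q, f q + f (σ q) + f (σ (σ q)) = 0 ∧ (σ q = q → f q = 0) := Iff.rfl

end Orbit

/-- **H1-DIM (two)**: for an involution `σ` of a finite set,
`2 dim ekerTwo + #Fix σ = #Q` over EVERY field. -/
def OrbitDimTwoStatement : Prop :=
  ∀ (k : Type) [Field k] (Q : Type) [Fintype Q] [DecidableEq Q] (σ : Q → Q),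
    (∀ q, σ (σ q) = q) →
      2 * finrank k (ekerTwo k σ) + Fintype.card {q : Q // σ q = q} = Fintype.card Q

/-- **H1-DIM (three)**: for a self-map `σ` of a finite set with `σ³ = id`,
`3 dim ekerThree + 2 #Fix σ = 2 #Q` over EVERY field. -/
def OrbitDimThreeStatement : Prop :=
  ∀ (k : Type) [Field k] (Q : Type) [Fintype Q] [DecidableEq Q] (σ : Q → Q),
    (∀ q, σ (σ (σ q)) = q) →
      3 * finrank k (ekerThree k σ) + 2 * Fintype.card {q : Q // σ q = q}
        = 2 * Fintype.card Q

/-! ### Parabolic-elliptic trivial homomorphisms -/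

/-- `φ` vanishes on all elements of `Γ₀(N)` with `trace ^ 2 ≤ 4`. -/
def IsPEHom {N : ℕ} {A : Type*} [AddCommGroup A] (φ : Additive ↥(Gamma0 N) →+ A) : Prop :=
  ∀ γ : ↥(Gamma0 N), ((γ : SL(2, ℤ)) : Matrix (Fin 2) (Fin 2) ℤ).trace ^ 2 ≤ 4 →
    φ (Additive.ofMul γ) = 0

/-- The `k`-space of parabolic-elliptic trivial homomorphisms `Γ₀(N) → k`. -/
def peHoms (k : Type) [Field k] (N : ℕ) : Submodule k (Additive ↥(Gamma0 N) →+ k) where
  carrier := {φ | IsPEHom φ}
  zero_mem' := fun _ _ => rfl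
  add_mem' := by
    intro φ ψ hφ hψ γ hγ
    show φ (Additive.ofMul γ) + ψ (Additive.ofMul γ) = 0
    rw [hφ γ hγ, hψ γ hγ, add_zero]
  smul_mem' := by
    intro c φ hφ γ hγ
    show c • φ (Additive.ofMul γ) = 0
    rw [hφ γ hγ, smul_zero]

theorem mem_peHoms {k : Type} [Field k] {N : ℕ} {φ : Additive ↥(Gamma0 N) →+ k} :
    φ ∈ peHoms k N ↔ IsPEHom φ := Iff.rfl

/-- The genus, as `dim S₂(Γ₀(N))`. -/
noncomputable def hgenus (N : ℕ) : ℕ := finrank ℂ (CuspForm (Gamma0 N) 2)

/-- **H1-BOUND**: over every field, the space of parabolic-elliptic trivial homomorphisms is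
finite dimensional of dimension at most `2 g`. -/
def PEBoundStatement : Prop :=
  ∀ (N : ℕ) [NeZero N] (k : Type) [Field k],
    Module.Finite k (peHoms k N) ∧ finrank k (peHoms k N) ≤ 2 * hgenus N

/-- **H1-UP**: at most `m ^ (2 g)` Kummer characters of exponent `m`. -/
def KummerUpperStatement : Prop :=
  ∀ (N : ℕ) [NeZero N] (m : ℕ), 0 < m →
    Finite ↥(Fermat.Agent.H94.EsA.kummerChars N m) ∧
      Nat.card ↥(Fermat.Agent.H94.EsA.kummerChars N m) ≤ m ^ (2 * hgenus N)

/-- **H1-LOW**: at least `m ^ (2 g)` Kummer characters of exponent `m` (given finiteness). -/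
def KummerLowerStatement : Prop :=
  ∀ (N : ℕ) [NeZero N] (m : ℕ), 0 < m →
    Finite ↥(Fermat.Agent.H94.EsA.kummerChars N m) →
      m ^ (2 * hgenus N) ≤ Nat.card ↥(Fermat.Agent.H94.EsA.kummerChars N m)

/-- **H1-RANK**: the lattice of integral parabolic classes has rank at least `2 g`. -/
def LatticeRankStatement : Prop :=
  ∀ (N : ℕ) [NeZero N],
    2 * hgenus N ≤ finrank ℤ ↥(ModularCurve.Period.parabolicHoms ℤ (Gamma0 N) ℤ)

/-- **H1 (main)**: exactly `m ^ (2 g)` Kummer characters of exponent `m`. -/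
def KummerCountStatement : Prop :=
  ∀ (N : ℕ) [NeZero N] (m : ℕ), 0 < m →
    Nat.card ↥(Fermat.Agent.H94.EsA.kummerChars N m) = m ^ (2 * hgenus N)

theorem kummerCount_of (hU : KummerUpperStatement) (hL : KummerLowerStatement) :
    KummerCountStatement := by
  intro N _ m hm
  obtain ⟨hfin, hle⟩ := hU N m hm
  exact le_antisymm hle (hL N m hm hfin)

end Fermat.Agent.H63.H1
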