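/-
P-H1 / H1-BOUND (helper63): the parabolic bound of helper28 (`Fermat.Agent.H28.parabolic_bound`)
over an ARBITRARY field `k`, for homomorphisms vanishing on the elliptic elements too.

Abstract setting: `G` a group generated by `S` and `U = S * T`, `Γ` a subgroup of finite index,
`Par` a conjugation-invariant subset of `G` containing `S`, `U`, `S * S`, `U * U * U` and all
`T ^ n`.  If `S * S` and `U * U * U` act trivially on `G ⧸ Γ` then the space `P` of
homomorphisms `Γ → k` vanishing on `Γ ∩ Par` satisfies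
`6 dim P + 3 #Fix(S) + 4 #Fix(U) + 6 #(T-orbits) ≤ [G : Γ] + 12`.

The proof is the proof of helper28 with `ker (1 + S^*)`, `ker (1 + U^* + U^*U^*)` replaced by
the subspaces `ekerTwo`, `ekerThree` of functions vanishing on the fixed points.
-/
import Mathlib
import Fermat.Agent.H28.Cocycle
import Fermat.Agent.H63.H1.Interfaces

set_option autoImplicit false

namespace Fermat.Agent.H63.H1

open Module
open Fermat.Agent.H28 (cocyc coch coch_mul coch_one coe_cocyc_of_smul_eq)

variable (k : Type) [Field k]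

section LinAlg

/-- Rank–nullity bookkeeping. -/
lemma finrank_add_le_of_comp_eq_zeroK {X Y Z : Type*} [AddCommGroup X] [Module k X]
    [AddCommGroup Y] [Module k Y] [Module.Finite k Y]
    [AddCommGroup Z] [Module k Z] [Module.Finite k Z]
    (J : X →ₗ[k] Y) (hJ : Function.Injective J) (Λ : Y →ₗ[k] Z) (hΛJ : ∀ x, Λ (J x) = 0)
    (e : Z) (hrange : LinearMap.range Λ ⊔ Submodule.span k {e} = ⊤) :
    finrank k X + finrank k Z ≤ finrank k Y + 1 := by
  have h1 : finrank k X ≤ finrank k (LinearMap.ker Λ) := by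
    let J' : X →ₗ[k] LinearMap.ker Λ := J.codRestrict (LinearMap.ker Λ) (fun x => hΛJ x)
    have hJ' : Function.Injective J' := by
      intro a b hab
      apply hJ
      exact congrArg Subtype.val hab
    exact LinearMap.finrank_le_finrank_of_injective hJ'
  have h2 := LinearMap.finrank_range_add_finrank_ker Λ
  have h3 : finrank k Z ≤ finrank k (LinearMap.range Λ) + 1 := by
    have h4 : finrank k (⊤ : Submodule k Z) = finrank k Z := finrank_top k Z
    rw [← h4, ← hrange]
    refine (Submodule.finrank_add_le_finrank_add_finrank _ _).trans ?_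
    have h5 : finrank k (Submodule.span k {e}) ≤ 1 := by
      refine (finrank_span_le_card ({e} : Set Z)).trans ?_
      simp
    omega
  omega

end LinAlg

section Pull

variable {Q : Type*}

/-- Pullback of functions along a self-map. -/
noncomputable def pullK (σ : Q → Q) : (Q → k) →ₗ[k] (Q → k) := LinearMap.funLeft k k σ

variable {k}

@[simp] lemma pullK_apply (σ : Q → Q) (f : Q → k) (q : Q) : pullK k σ f q = f (σ q) := rfl

end Pull

section FiberSum

variable {Q O : Type*} [Fintype Q]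

open scoped Classical in
/-- Sum over the fibres of a map. -/
noncomputable def fiberSumK (π : Q → O) : (Q → k) →ₗ[k] (O → k) where
  toFun f := fun o => ∑ q, if π q = o then f q else 0
  map_add' f g := by
    ext o
    simp only [Pi.add_apply, ← Finset.sum_add_distrib]
    refine Finset.sum_congr rfl fun q _ => ?_
    split_ifs <;> simp
  map_smul' c f := by
    ext o
    simp only [Pi.smul_apply, smul_eq_mul, RingHom.id_apply, Finset.mul_sum]
    refine Finset.sum_congr rfl fun q _ => ?_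
    split_ifs <;> simp

variable {k}

open scoped Classical in
lemma fiberSumK_apply (π : Q → O) (f : Q → k) (o : O) :
    fiberSumK k π f o = ∑ q, if π q = o then f q else 0 := rfl

lemma fiberSumK_single [DecidableEq Q] [DecidableEq O] (π : Q → O) (q : Q) :
    fiberSumK k π (Pi.single q 1) = Pi.single (π q) 1 := by
  ext o
  rw [fiberSumK_apply]
  simp only [Pi.single_apply]
  rw [Finset.sum_eq_single q]
  · simp [eq_comm]
  · intro b _ hb
    simp [hb]
  · intro h
    exact absurd (Finset.mem_univ q) h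

lemma fiberSumK_pull (π : Q → O) (σ : Equiv.Perm Q) (hσ : ∀ q, π (σ q) = π q) (f : Q → k) :
    fiberSumK k π (pullK k σ f) = fiberSumK k π f := by
  classical
  ext o
  rw [fiberSumK_apply, fiberSumK_apply]
  rw [← Equiv.sum_comp σ (fun q => if π q = o then f q else 0)]
  refine Finset.sum_congr rfl fun q _ => ?_
  simp only [hσ, pullK_apply]

end FiberSum

section Zmap

variable {G : Type*} [Group G] (Γ : Subgroup G)

/-- The cochain of `φ` at `g`, as a linear map in `φ`. -/
noncomputable def cochLK (g : G) : (Additive Γ →+ k) →ₗ[k] ((G ⧸ Γ) → k) where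
  toFun φ := fun q => coch Γ φ g q
  map_add' φ ψ := by ext q; rfl
  map_smul' c φ := by ext q; rfl

/-- The cocycle `g ↦ coch φ g + (β ∘ g - β)` attached to a pair `(φ, β)`. -/
noncomputable def zmapK (g : G) :
    ((Additive Γ →+ k) × ((G ⧸ Γ) → k)) →ₗ[k] ((G ⧸ Γ) → k) :=
  cochLK k Γ g ∘ₗ LinearMap.fst k _ _ + (pullK k (fun q => g • q) - 1) ∘ₗ LinearMap.snd k _ _

variable {k}

lemma zmapK_apply (g : G) (x : (Additive Γ →+ k) × ((G ⧸ Γ) → k)) (q : G ⧸ Γ) :
    zmapK k Γ g x q = coch Γ x.1 g q + (x.2 (g • q) - x.2 q) := rfl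

lemma zmapK_mul (g h : G) (x : (Additive Γ →+ k) × ((G ⧸ Γ) → k)) (q : G ⧸ Γ) :
    zmapK k Γ (g * h) x q = zmapK k Γ g x (h • q) + zmapK k Γ h x q := by
  simp only [zmapK_apply, coch_mul, mul_smul]
  ring

lemma zmapK_one (x : (Additive Γ →+ k) × ((G ⧸ Γ) → k)) : zmapK k Γ 1 x = 0 := by
  ext q
  simp [zmapK_apply, coch_one]

lemma zmapK_inv (g : G) (x : (Additive Γ →+ k) × ((G ⧸ Γ) → k)) (q : G ⧸ Γ) :
    zmapK k Γ g⁻¹ x q = - zmapK k Γ g x (g⁻¹ • q) := by
  have h := zmapK_mul Γ g g⁻¹ x q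
  rw [mul_inv_cancel, zmapK_one] at h
  simp only [Pi.zero_apply] at h
  linear_combination -h

lemma zmapK_pow (g : G) (n : ℕ) (x : (Additive Γ →+ k) × ((G ⧸ Γ) → k)) (q : G ⧸ Γ) :
    zmapK k Γ (g ^ n) x q = ∑ i ∈ Finset.range n, zmapK k Γ g x (g ^ i • q) := by
  induction n with
  | zero => simp [zmapK_one]
  | succ n ih =>
    rw [pow_succ', zmapK_mul, Finset.sum_range_succ, ih, add_comm]

/-- The predicate "`φ` vanishes on `Γ ∩ Par`". -/
def KillsParK (Par : Set G) (φ : Additive Γ →+ k) : Prop :=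
  ∀ γ : Γ, (γ : G) ∈ Par → φ (Additive.ofMul γ) = 0

variable {Γ}

lemma zmapK_eq_zero_of_fixed {Par : Set G} (hconj : ∀ g x : G, x ∈ Par → g⁻¹ * x * g ∈ Par)
    {x : (Additive Γ →+ k) × ((G ⧸ Γ) → k)} (hx : KillsParK Γ Par x.1)
    {g : G} (hg : g ∈ Par) {q : G ⧸ Γ} (hq : g • q = q) : zmapK k Γ g x q = 0 := by
  rw [zmapK_apply, hq, sub_self, add_zero]
  unfold coch
  apply hx
  rw [coe_cocyc_of_smul_eq Γ hq]
  exact hconj _ _ hg

lemma zmapK_eq_zero_of_closure {S U : G} (hgen : Subgroup.closure {S, U} = ⊤)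
    {x : (Additive Γ →+ k) × ((G ⧸ Γ) → k)} (hS : zmapK k Γ S x = 0) (hU : zmapK k Γ U x = 0)
    (g : G) : zmapK k Γ g x = 0 := by
  have hg : g ∈ Subgroup.closure {S, U} := by rw [hgen]; trivial
  induction hg using Subgroup.closure_induction with
  | mem y hy =>
    rcases hy with rfl | rfl
    · exact hS
    · exact hU
  | one => exact zmapK_one Γ x
  | mul a b _ _ ha hb =>
    ext q
    rw [zmapK_mul, ha, hb]
    simp
  | inv a _ ha =>
    ext q
    rw [zmapK_inv, ha]
    simp

lemma eq_zero_of_zmapK_eq_zero {x : (Additive Γ →+ k) × ((G ⧸ Γ) → k)}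
    (h : ∀ g : G, zmapK k Γ g x = 0) (h0 : x.2 ((1 : G) : G ⧸ Γ) = 0) : x = 0 := by
  have hφ : x.1 = 0 := by
    refine AddMonoidHom.ext fun γ => ?_
    obtain ⟨γ, rfl⟩ : ∃ γ' : Γ, Additive.ofMul γ' = γ := ⟨Additive.toMul γ, rfl⟩
    have h1 := congrFun (h (γ : G)) ((1 : G) : G ⧸ Γ)
    have hfix : (γ : G) • (((1 : G) : G ⧸ Γ)) = ((1 : G) : G ⧸ Γ) := by
      rw [MulAction.Quotient.smul_mk, QuotientGroup.eq]
      simp
    rw [zmapK_apply, hfix, sub_self, add_zero] at h1
    simp only [Pi.zero_apply] at h1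
    unfold coch at h1
    set s : G := Quotient.out (((1 : G) : G ⧸ Γ)) with hs
    have hsmem : s ∈ Γ := by
      have : ((s : G) : G ⧸ Γ) = ((1 : G) : G ⧸ Γ) := QuotientGroup.out_eq' _
      rw [QuotientGroup.eq] at this
      simpa using Γ.inv_mem this
    have hc : cocyc Γ (γ : G) ((1 : G) : G ⧸ Γ) = (⟨s, hsmem⟩ : Γ)⁻¹ * γ * ⟨s, hsmem⟩ := by
      apply Subtype.ext
      rw [coe_cocyc_of_smul_eq Γ hfix]
      rfl
    rw [hc, ofMul_mul, ofMul_mul, ofMul_inv, map_add, map_add, map_neg] at h1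
    simp only [AddMonoidHom.zero_apply]
    linear_combination h1
  have hβ : x.2 = 0 := by
    ext q
    induction q using QuotientGroup.induction_on with
    | H g =>
      have h1 := congrFun (h g) ((1 : G) : G ⧸ Γ)
      rw [zmapK_apply, hφ] at h1
      have hg : g • (((1 : G) : G ⧸ Γ)) = (g : G ⧸ Γ) := by
        rw [MulAction.Quotient.smul_mk]
        simp
      rw [hg, h0] at h1
      simpa [coch] using h1
  exact Prod.ext hφ hβ

end Zmap

section Orbits

variable {k}
variable {G : Type*} [Group G] {Γ : Subgroup G} [Fintype (G ⧸ Γ)]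

/-- The projection onto the set of orbits of the cyclic group generated by `T`. -/
def orbProjK (Γ : Subgroup G) (T : G) :
    (G ⧸ Γ) → MulAction.orbitRel.Quotient (Subgroup.zpowers T) (G ⧸ Γ) :=
  fun q => Quotient.mk'' q

omit [Fintype (G ⧸ Γ)] in
lemma orbProjK_pow_smul (T : G) (n : ℕ) (q : G ⧸ Γ) :
    orbProjK Γ T (T ^ n • q) = orbProjK Γ T q := by
  apply Quotient.sound'
  exact ⟨⟨T ^ n, Subgroup.pow_mem _ (Subgroup.mem_zpowers T) n⟩, rfl⟩

omit [Fintype (G ⧸ Γ)] in
lemma orbProjK_smul (T : G) (q : G ⧸ Γ) :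
    orbProjK Γ T (T • q) = orbProjK Γ T q := by
  simpa using orbProjK_pow_smul (Γ := Γ) T 1 q

lemma exists_pow_smul_eqK (T : G) : ∃ n : ℕ, 0 < n ∧ ∀ q : G ⧸ Γ, T ^ n • q = q := by
  classical
  refine ⟨Fintype.card (Equiv.Perm (G ⧸ Γ)), Fintype.card_pos, fun q => ?_⟩
  have h : (MulAction.toPermHom G (G ⧸ Γ) T) ^ Fintype.card (Equiv.Perm (G ⧸ Γ)) = 1 :=
    pow_card_eq_one
  rw [← map_pow] at h
  have h2 := congrArg (fun σ : Equiv.Perm (G ⧸ Γ) => σ q) h
  simpa using h2

lemma fiberSumK_pull_pow (T : G) (n : ℕ) (f : (G ⧸ Γ) → k) :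
    fiberSumK k (orbProjK Γ T) (pullK k (fun q => T ^ n • q) f)
      = fiberSumK k (orbProjK Γ T) f :=
  fiberSumK_pull (orbProjK Γ T) (MulAction.toPerm (T ^ n)) (fun q => orbProjK_pow_smul T n q) f

lemma fiberSumK_pull_T (T : G) (f : (G ⧸ Γ) → k) :
    fiberSumK k (orbProjK Γ T) (pullK k (fun q => T • q) f) = fiberSumK k (orbProjK Γ T) f :=
  fiberSumK_pull (orbProjK Γ T) (MulAction.toPerm T) (fun q => orbProjK_smul T q) f

/-- The orbit sums of the cocycle at `T` vanish.  (Characteristic-free: we sum over one period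
of each orbit, not over a common period.) -/
lemma fiberSumK_zmapK_T {Par : Set G} (hconj : ∀ g x : G, x ∈ Par → g⁻¹ * x * g ∈ Par)
    {T : G} (hT : ∀ n : ℕ, T ^ n ∈ Par)
    {x : (Additive Γ →+ k) × ((G ⧸ Γ) → k)} (hx : KillsParK Γ Par x.1) :
    fiberSumK k (orbProjK Γ T) (zmapK k Γ T x) = 0 := by
  classical
  ext o
  induction o using Quotient.inductionOn' with
  | h q₀ =>
    rw [fiberSumK_apply]
    simp only [Pi.zero_apply]
    -- the period of `q₀`
    let n : ℕ := Function.minimalPeriod (fun q : G ⧸ Γ => T • q) q₀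
    have hper : ∀ i : ℕ, (fun q : G ⧸ Γ => T • q)^[i] q₀ = T ^ i • q₀ := by
      intro i
      induction i with
      | zero => simp
      | succ i ih =>
        rw [Function.iterate_succ_apply', ih, pow_succ', mul_smul]
    have hnpos : 0 < n := by
      obtain ⟨m, hm, hfix⟩ := exists_pow_smul_eqK (Γ := Γ) T
      apply Function.IsPeriodicPt.minimalPeriod_pos hm
      show (fun q : G ⧸ Γ => T • q)^[m] q₀ = q₀
      rw [hper]
      exact hfix q₀
    have hn : T ^ n • q₀ = q₀ := by
      rw [← hper]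
      exact Function.iterate_minimalPeriod
    -- the orbit of `q₀` is `{T ^ i • q₀ | i < n}`, without repetition
    have hinj : Set.InjOn (fun i : ℕ => T ^ i • q₀) (Finset.range n : Set ℕ) := by
      intro i hi j hj hij
      simp only [Finset.coe_range, Set.mem_Iio] at hi hj
      have hij' : (fun q : G ⧸ Γ => T • q)^[i] q₀ = (fun q : G ⧸ Γ => T • q)^[j] q₀ := by
        rw [hper, hper]
        exact hij
      exact (Function.iterate_injOn_Iio_minimalPeriod (f := fun q : G ⧸ Γ => T • q)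
        (x := q₀)) hi hj hij'
    have himage : ∀ q : G ⧸ Γ, orbProjK Γ T q = Quotient.mk'' q₀ ↔
        q ∈ (Finset.range n).image (fun i : ℕ => T ^ i • q₀) := by
      intro q
      rw [Finset.mem_image]
      constructor
      · intro hq
        have hq' : q ∈ MulAction.orbit (Subgroup.zpowers T) q₀ := by
          have := Quotient.exact' hq
          exact this
        obtain ⟨⟨g, hg⟩, rfl⟩ := hq'
        obtain ⟨z, rfl⟩ := Subgroup.mem_zpowers_iff.mp hg
        refine ⟨(z % (n : ℤ)).toNat, ?_, ?_⟩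
        · rw [Finset.mem_range]
          have h1 : 0 ≤ z % (n : ℤ) := Int.emod_nonneg _ (by exact_mod_cast hnpos.ne')
          have h2 : z % (n : ℤ) < n := Int.emod_lt_of_pos _ (by exact_mod_cast hnpos)
          omega
        · have h1 : 0 ≤ z % (n : ℤ) := Int.emod_nonneg _ (by exact_mod_cast hnpos.ne')
          have hz : z = (z % (n : ℤ)).toNat + (n : ℤ) * (z / (n : ℤ)) := by
            rw [Int.toNat_of_nonneg h1]
            exact (Int.emod_add_mul_ediv z n).symm
          have hpowz : ∀ m : ℤ, (T ^ n) ^ m • q₀ = q₀ := by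
            intro m
            have hfix : (T ^ n) • q₀ = q₀ := hn
            induction m using Int.induction_on with
            | zero => simp
            | succ i ih =>
              rw [zpow_add_one, mul_smul, hfix, ih]
            | pred i ih =>
              rw [zpow_sub_one, mul_smul]
              have : (T ^ n)⁻¹ • q₀ = q₀ := by
                rw [inv_smul_eq_iff, hfix]
              rw [this, ih]
          show T ^ (z % (n : ℤ)).toNat • q₀ = (⟨T ^ z, hg⟩ : Subgroup.zpowers T) • q₀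
          show T ^ (z % (n : ℤ)).toNat • q₀ = T ^ z • q₀
          conv_rhs => rw [hz, zpow_add, zpow_mul, zpow_natCast, zpow_natCast, mul_smul, hpowz]
      · rintro ⟨i, -, rfl⟩
        exact orbProjK_pow_smul T i q₀
    simp only [himage]
    rw [Finset.sum_ite_mem, Finset.univ_inter, Finset.sum_image hinj, ← zmapK_pow]
    exact zmapK_eq_zero_of_fixed hconj hx (hT n) hn

lemma fiberSumK_zmapK_U_sub_S {Par : Set G} (hconj : ∀ g x : G, x ∈ Par → g⁻¹ * x * g ∈ Par)
    {S T U : G} (hU : U = S * T) (hT : ∀ n : ℕ, T ^ n ∈ Par)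
    {x : (Additive Γ →+ k) × ((G ⧸ Γ) → k)} (hx : KillsParK Γ Par x.1) :
    fiberSumK k (orbProjK Γ T) (zmapK k Γ U x - zmapK k Γ S x) = 0 := by
  have h1 : zmapK k Γ U x = pullK k (fun q => T • q) (zmapK k Γ S x) + zmapK k Γ T x := by
    ext q
    rw [hU, zmapK_mul]
    rfl
  rw [h1, map_sub, map_add, fiberSumK_pull_T, fiberSumK_zmapK_T hconj hT hx]
  simp

end Orbits

section Range

variable {k}
variable {G : Type} [Group G] {Γ : Subgroup G} [Fintype (G ⧸ Γ)]

/-- The map `(a, b) ↦ (orbit sums of b - a)` on `ekerTwo × ekerThree`. -/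
noncomputable def lamK (Γ : Subgroup G) [Fintype (G ⧸ Γ)] (S T U : G) :
    (ekerTwo k (fun q : G ⧸ Γ => S • q) × ekerThree k (fun q : G ⧸ Γ => U • q)) →ₗ[k]
      (MulAction.orbitRel.Quotient (Subgroup.zpowers T) (G ⧸ Γ) → k) :=
  fiberSumK k (orbProjK Γ T) ∘ₗ
    ((ekerThree k (fun q : G ⧸ Γ => U • q)).subtype ∘ₗ LinearMap.snd k _ _
      - (ekerTwo k (fun q : G ⧸ Γ => S • q)).subtype ∘ₗ LinearMap.fst k _ _)

lemma lamK_apply (S T U : G)
    (x : ekerTwo k (fun q : G ⧸ Γ => S • q) × ekerThree k (fun q : G ⧸ Γ => U • q)) :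
    lamK Γ S T U x
      = fiberSumK k (orbProjK Γ T) ((x.2 : (G ⧸ Γ) → k) - (x.1 : (G ⧸ Γ) → k)) := rfl

lemma fiberSumK_sub_pull_mem_range {S T U : G} (hgen : Subgroup.closure {S, U} = ⊤)
    (hS2 : ∀ q : G ⧸ Γ, S • S • q = q) (hU3 : ∀ q : G ⧸ Γ, U • U • U • q = q)
    (g : G) : ∀ f : (G ⧸ Γ) → k,
      fiberSumK k (orbProjK Γ T) (f - pullK k (fun q => g • q) f)
        ∈ LinearMap.range (lamK (k := k) Γ S T U) := by
  have hg : g ∈ Subgroup.closure {S, U} := by rw [hgen]; trivial
  induction hg using Subgroup.closure_induction with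
  | mem y hy =>
    intro f
    rcases hy with rfl | rfl
    · have hmem : f - pullK k (fun q : G ⧸ Γ => y • q) f
          ∈ ekerTwo k (fun q : G ⧸ Γ => y • q) := by
        rw [mem_ekerTwo]
        intro q
        refine ⟨?_, fun hq => ?_⟩
        · simp only [Pi.sub_apply, pullK_apply, hS2]
          ring
        · simp only [Pi.sub_apply, pullK_apply, hq, sub_self]
      refine ⟨(-⟨_, hmem⟩, 0), ?_⟩
      rw [lamK_apply]
      simp
    · have hmem : f - pullK k (fun q : G ⧸ Γ => y • q) f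
          ∈ ekerThree k (fun q : G ⧸ Γ => y • q) := by
        rw [mem_ekerThree]
        intro q
        refine ⟨?_, fun hq => ?_⟩
        · simp only [Pi.sub_apply, pullK_apply, hU3]
          ring
        · simp only [Pi.sub_apply, pullK_apply, hq, sub_self]
      refine ⟨(0, ⟨_, hmem⟩), ?_⟩
      rw [lamK_apply]
      simp
  | one =>
    intro f
    have : f - pullK k (fun q : G ⧸ Γ => (1 : G) • q) f = 0 := by
      ext q; simp
    rw [this, map_zero]
    exact Submodule.zero_mem _
  | mul a b _ _ ha hb =>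
    intro f
    have : f - pullK k (fun q : G ⧸ Γ => (a * b) • q) f
        = (f - pullK k (fun q : G ⧸ Γ => a • q) f)
          + (pullK k (fun q : G ⧸ Γ => a • q) f
              - pullK k (fun q : G ⧸ Γ => b • q) (pullK k (fun q : G ⧸ Γ => a • q) f)) := by
      ext q; simp [mul_smul]
    rw [this, map_add]
    exact Submodule.add_mem _ (ha f) (hb _)
  | inv a _ ha =>
    intro f
    have : f - pullK k (fun q : G ⧸ Γ => a⁻¹ • q) f
        = - (pullK k (fun q : G ⧸ Γ => a⁻¹ • q) f
              - pullK k (fun q : G ⧸ Γ => a • q) (pullK k (fun q : G ⧸ Γ => a⁻¹ • q) f)) := by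
      ext q; simp
    rw [this, map_neg]
    exact Submodule.neg_mem _ (ha _)

open scoped Classical in
lemma range_lamK_sup_span {S T U : G} (hgen : Subgroup.closure {S, U} = ⊤)
    (hS2 : ∀ q : G ⧸ Γ, S • S • q = q) (hU3 : ∀ q : G ⧸ Γ, U • U • U • q = q) :
    LinearMap.range (lamK (k := k) Γ S T U)
      ⊔ Submodule.span k {(Pi.single (orbProjK Γ T ((1 : G) : G ⧸ Γ)) (1 : k) :
          MulAction.orbitRel.Quotient (Subgroup.zpowers T) (G ⧸ Γ) → k)} = ⊤ := by
  have : Finite (MulAction.orbitRel.Quotient (Subgroup.zpowers T) (G ⧸ Γ)) :=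
    Quotient.finite _
  have : Fintype (MulAction.orbitRel.Quotient (Subgroup.zpowers T) (G ⧸ Γ)) :=
    Fintype.ofFinite _
  rw [eq_top_iff]
  intro v _
  have hsingle : ∀ o : MulAction.orbitRel.Quotient (Subgroup.zpowers T) (G ⧸ Γ),
      (Pi.single o (1 : k) : MulAction.orbitRel.Quotient (Subgroup.zpowers T) (G ⧸ Γ) → k)
        ∈ LinearMap.range (lamK (k := k) Γ S T U)
          ⊔ Submodule.span k {(Pi.single (orbProjK Γ T ((1 : G) : G ⧸ Γ)) (1 : k) :
            MulAction.orbitRel.Quotient (Subgroup.zpowers T) (G ⧸ Γ) → k)} := by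
    intro o
    induction o using Quotient.inductionOn' with
    | h q =>
      induction q using QuotientGroup.induction_on with
      | H g =>
        have h1 : (Pi.single ((g : G) : G ⧸ Γ) (1 : k) : (G ⧸ Γ) → k)
            = pullK k (fun q : G ⧸ Γ => g⁻¹ • q) (Pi.single ((1 : G) : G ⧸ Γ) (1 : k)) := by
          ext r
          simp only [pullK_apply, Pi.single_apply]
          have : (g⁻¹ • r = ((1 : G) : G ⧸ Γ)) ↔ r = ((g : G) : G ⧸ Γ) := by
            rw [inv_smul_eq_iff, MulAction.Quotient.smul_mk]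
            simp
          simp only [this]
        have h2 : (Pi.single (Quotient.mk'' ((g : G) : G ⧸ Γ)) (1 : k) :
            MulAction.orbitRel.Quotient (Subgroup.zpowers T) (G ⧸ Γ) → k)
            = fiberSumK k (orbProjK Γ T) (Pi.single ((g : G) : G ⧸ Γ) (1 : k)) := by
          rw [fiberSumK_single]
          rfl
        rw [h2, h1]
        have h3 := fiberSumK_sub_pull_mem_range (k := k) (T := T) hgen hS2 hU3 g⁻¹
          (Pi.single ((1 : G) : G ⧸ Γ) (1 : k))
        rw [map_sub, fiberSumK_single] at h3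
        have h4 : fiberSumK k (orbProjK Γ T)
            (pullK k (fun q : G ⧸ Γ => g⁻¹ • q) (Pi.single ((1 : G) : G ⧸ Γ) (1 : k)))
            = - (Pi.single (orbProjK Γ T ((1 : G) : G ⧸ Γ)) (1 : k)
                  - fiberSumK k (orbProjK Γ T)
                    (pullK k (fun q : G ⧸ Γ => g⁻¹ • q) (Pi.single ((1 : G) : G ⧸ Γ) (1 : k))))
              + Pi.single (orbProjK Γ T ((1 : G) : G ⧸ Γ)) (1 : k) := by
          abel
        rw [h4]
        refine Submodule.add_mem_sup (Submodule.neg_mem _ h3) ?_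
        exact Submodule.subset_span rfl
  have hv : v = ∑ o, v o • (Pi.single o (1 : k) :
      MulAction.orbitRel.Quotient (Subgroup.zpowers T) (G ⧸ Γ) → k) := by
    ext o
    simp [Finset.sum_apply, Pi.single_apply]
  rw [hv]
  exact Submodule.sum_mem _ fun o _ => Submodule.smul_mem _ _ (hsingle o)

end Range

section MainTheorem

variable {G : Type} [Group G]

/-- **Abstract bound** for the dimension of the space of parabolic-elliptic trivial
homomorphisms, over an arbitrary field. -/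
theorem parabolic_bound_field (h2 : OrbitDimTwoStatement) (h3 : OrbitDimThreeStatement)
    (Γ : Subgroup G) [Finite (G ⧸ Γ)]
    (S T U : G) (hU : U = S * T) (hgen : Subgroup.closure {S, U} = ⊤)
    (Par : Set G) (hconj : ∀ g x : G, x ∈ Par → g⁻¹ * x * g ∈ Par)
    (hSmem : S ∈ Par) (hUmem : U ∈ Par)
    (hS : S * S ∈ Par) (hUU : U * U * U ∈ Par) (hT : ∀ n : ℕ, T ^ n ∈ Par)
    (hS2 : ∀ q : G ⧸ Γ, S • S • q = q) (hU3 : ∀ q : G ⧸ Γ, U • U • U • q = q)
    (P : Submodule k (Additive Γ →+ k)) (hP : ∀ φ ∈ P, KillsParK Γ Par φ) :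
    Module.Finite k P ∧
    6 * finrank k P + 3 * Nat.card {q : G ⧸ Γ // S • q = q}
      + 4 * Nat.card {q : G ⧸ Γ // U • q = q}
      + 6 * Nat.card (MulAction.orbitRel.Quotient (Subgroup.zpowers T) (G ⧸ Γ))
      ≤ Nat.card (G ⧸ Γ) + 12 := by
  classical
  have : Fintype (G ⧸ Γ) := Fintype.ofFinite _
  have : Finite (MulAction.orbitRel.Quotient (Subgroup.zpowers T) (G ⧸ Γ)) :=
    Quotient.finite _
  have : Fintype (MulAction.orbitRel.Quotient (Subgroup.zpowers T) (G ⧸ Γ)) :=
    Fintype.ofFinite _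
  let V₀ : Submodule k ((G ⧸ Γ) → k) :=
    LinearMap.ker (LinearMap.proj ((1 : G) : G ⧸ Γ) : ((G ⧸ Γ) → k) →ₗ[k] k)
  let ι : (P × V₀) →ₗ[k] ((Additive Γ →+ k) × ((G ⧸ Γ) → k)) :=
    LinearMap.prodMap P.subtype V₀.subtype
  have hι : ∀ x, KillsParK Γ Par (ι x).1 := fun x => hP _ x.1.2
  have hA : ∀ x, (zmapK k Γ S ∘ₗ ι) x ∈ ekerTwo k (fun q : G ⧸ Γ => S • q) := by
    intro x
    rw [mem_ekerTwo]
    intro q
    refine ⟨?_, fun hq => ?_⟩
    · have h1 := zmapK_mul Γ S S (ι x) q
      rw [zmapK_eq_zero_of_fixed hconj (hι x) hS (by rw [mul_smul]; exact hS2 q)] at h1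
      simp only [LinearMap.comp_apply]
      linear_combination -h1
    · exact zmapK_eq_zero_of_fixed hconj (hι x) hSmem hq
  have hB : ∀ x, (zmapK k Γ U ∘ₗ ι) x ∈ ekerThree k (fun q : G ⧸ Γ => U • q) := by
    intro x
    rw [mem_ekerThree]
    intro q
    refine ⟨?_, fun hq => ?_⟩
    · have h1 := zmapK_mul Γ (U * U) U (ι x) q
      rw [zmapK_eq_zero_of_fixed hconj (hι x) hUU
        (by rw [mul_smul, mul_smul]; exact hU3 q), zmapK_mul] at h1
      simp only [LinearMap.comp_apply]
      linear_combination -h1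
    · exact zmapK_eq_zero_of_fixed hconj (hι x) hUmem hq
  let J : (P × V₀) →ₗ[k]
      (ekerTwo k (fun q : G ⧸ Γ => S • q) × ekerThree k (fun q : G ⧸ Γ => U • q)) :=
    LinearMap.prod ((zmapK k Γ S ∘ₗ ι).codRestrict (ekerTwo k (fun q : G ⧸ Γ => S • q)) hA)
      ((zmapK k Γ U ∘ₗ ι).codRestrict (ekerThree k (fun q : G ⧸ Γ => U • q)) hB)
  have hJ : Function.Injective J := by
    rw [injective_iff_map_eq_zero]
    intro x hx
    have h1 : zmapK k Γ S (ι x) = 0 :=
      congrArg (fun y : ekerTwo k (fun q : G ⧸ Γ => S • q)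
        × ekerThree k (fun q : G ⧸ Γ => U • q) => (y.1 : (G ⧸ Γ) → k)) hx
    have h2 : zmapK k Γ U (ι x) = 0 :=
      congrArg (fun y : ekerTwo k (fun q : G ⧸ Γ => S • q)
        × ekerThree k (fun q : G ⧸ Γ => U • q) => (y.2 : (G ⧸ Γ) → k)) hx
    have h0 : (ι x).2 ((1 : G) : G ⧸ Γ) = 0 := x.2.2
    have h3 := eq_zero_of_zmapK_eq_zero (zmapK_eq_zero_of_closure hgen h1 h2) h0
    exact Prod.ext (Subtype.ext (congrArg Prod.fst h3)) (Subtype.ext (congrArg Prod.snd h3))
  have hΛJ : ∀ x, lamK Γ S T U (J x) = 0 := by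
    intro x
    rw [lamK_apply]
    exact fiberSumK_zmapK_U_sub_S hconj hU hT (hι x)
  have hr := range_lamK_sup_span (k := k) (Γ := Γ) (T := T) hgen hS2 hU3
  have key := @finrank_add_le_of_comp_eq_zeroK k _ (P × V₀)
    (ekerTwo k (fun q : G ⧸ Γ => S • q) × ekerThree k (fun q : G ⧸ Γ => U • q))
    (MulAction.orbitRel.Quotient (Subgroup.zpowers T) (G ⧸ Γ) → k) _ _ _ _ _ _ _ _ J hJ
    (lamK Γ S T U) (by intro x; exact hΛJ x)
    (Pi.single (orbProjK Γ T ((1 : G) : G ⧸ Γ)) (1 : k)) (by convert hr)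
  have hfin : Module.Finite k (P × V₀) := Module.Finite.of_injective J hJ
  have hnoeth : IsNoetherian k (P × V₀) := (IsNoetherian.iff_fg (K := k) (V := P × V₀)).2 hfin
  have hfinP : Module.Finite k P :=
    Module.Finite.of_injective (LinearMap.inl k P V₀) LinearMap.inl_injective
  have hfreeP : Module.Free k P := Module.Free.of_divisionRing k P
  have hfreeV : Module.Free k V₀ := Module.Free.of_divisionRing k V₀
  have hfinV : Module.Finite k V₀ := inferInstance
  have hfreeA : Module.Free k (ekerTwo k (fun q : G ⧸ Γ => S • q)) :=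
    Module.Free.of_divisionRing k _
  have hfreeB : Module.Free k (ekerThree k (fun q : G ⧸ Γ => U • q)) :=
    Module.Free.of_divisionRing k _
  have hfinA : Module.Finite k (ekerTwo k (fun q : G ⧸ Γ => S • q)) := inferInstance
  have hfinB : Module.Finite k (ekerThree k (fun q : G ⧸ Γ => U • q)) := inferInstance
  refine ⟨hfinP, ?_⟩
  have hV₀ : finrank k V₀ + 1 = Nat.card (G ⧸ Γ) := by
    have h1 := LinearMap.finrank_range_add_finrank_ker
      (LinearMap.proj ((1 : G) : G ⧸ Γ) : ((G ⧸ Γ) → k) →ₗ[k] k)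
    rw [LinearMap.range_eq_top.mpr (LinearMap.proj_surjective _), finrank_top,
      Module.finrank_self, Module.finrank_fintype_fun_eq_card, ← Nat.card_eq_fintype_card] at h1
    have h1' : 1 + finrank k V₀ = Nat.card (G ⧸ Γ) := h1
    omega
  have hA' := h2 k (G ⧸ Γ) (fun q : G ⧸ Γ => S • q) hS2
  have hB' := h3 k (G ⧸ Γ) (fun q : G ⧸ Γ => U • q) hU3
  rw [← Nat.card_eq_fintype_card, ← Nat.card_eq_fintype_card] at hA' hB'
  rw [Module.finrank_prod, Module.finrank_prod, Module.finrank_fintype_fun_eq_card,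
    ← Nat.card_eq_fintype_card] at key
  omega

end MainTheorem

end Fermat.Agent.H63.H1
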