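/-
P-H1 / H1-BOUND (helper63): over every field `k`, the space of parabolic-elliptic trivial
homomorphisms `Γ₀(N) → k` has dimension at most `2 g`, `g = dim S₂(Γ₀(N))`.
-/
import Mathlib
import Fermat.Agent.H63.H1.BoundCore
import Fermat.Agent.H28.S21Dim
import Fermat.Agent.H19.Assembly

set_option autoImplicit false

namespace Fermat.Agent.H63.H1

open CongruenceSubgroup MatrixGroups ModularCurve Module

/-- The set of elements of `SL(2, ℤ)` with `trace ^ 2 ≤ 4`. -/
def peSet : Set SL(2, ℤ) := {g | (g : Matrix (Fin 2) (Fin 2) ℤ).trace ^ 2 ≤ 4}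

lemma mem_peSet_iff (g : SL(2, ℤ)) :
    g ∈ peSet ↔ (g : Matrix (Fin 2) (Fin 2) ℤ).trace ^ 2 ≤ 4 := Iff.rfl

lemma peSet_conj (g x : SL(2, ℤ)) (hx : x ∈ peSet) : g⁻¹ * x * g ∈ peSet := by
  rw [mem_peSet_iff] at hx ⊢
  have : ((g⁻¹ * x * g : SL(2, ℤ)) : Matrix (Fin 2) (Fin 2) ℤ).trace
      = (x : Matrix (Fin 2) (Fin 2) ℤ).trace := by
    rw [Matrix.SpecialLinearGroup.coe_mul, Matrix.SpecialLinearGroup.coe_mul,
      Matrix.trace_mul_cycle, ← Matrix.SpecialLinearGroup.coe_mul, mul_inv_cancel,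
      Matrix.SpecialLinearGroup.coe_one, one_mul]
  rw [this]
  exact hx

lemma parSet_subset_peSet {g : SL(2, ℤ)} (hg : g ∈ Fermat.Agent.H28.parSet) : g ∈ peSet := by
  rw [mem_peSet_iff]
  rw [Fermat.Agent.H28.mem_parSet_iff] at hg
  rw [hg]

lemma S_mem_peSet : ModularGroup.S ∈ peSet := by
  rw [mem_peSet_iff]
  decide

lemma ST_mem_peSet : ModularGroup.S * ModularGroup.T ∈ peSet := by
  rw [mem_peSet_iff]
  decide

/-- The abstract bound for `Γ₀(N)` over an arbitrary field. -/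
theorem peHoms_bound (h2 : OrbitDimTwoStatement) (h3 : OrbitDimThreeStatement)
    (N : ℕ) [NeZero N] (k : Type) [Field k] :
    Module.Finite k (peHoms k N) ∧
    6 * finrank k (peHoms k N)
      + 3 * nuTwo N + 4 * nuThree N + 6 * cuspCount N ≤ dedekindPsi N + 12 := by
  have hfinidx : (Gamma0 N).FiniteIndex := inferInstance
  have hfinq : Finite (SL(2, ℤ) ⧸ Gamma0 N) := Subgroup.finite_quotient_of_finiteIndex
  have key := parabolic_bound_field k h2 h3 (Gamma0 N) ModularGroup.S ModularGroup.T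
    (ModularGroup.S * ModularGroup.T) rfl Fermat.Agent.H28.closure_S_ST peSet peSet_conj
    S_mem_peSet ST_mem_peSet
    (by rw [Fermat.Agent.H28.S_mul_S_eq_neg_one]
        exact parSet_subset_peSet Fermat.Agent.H28.neg_one_mem_parSet)
    (by rw [Fermat.Agent.H28.ST_cube_eq_neg_one]
        exact parSet_subset_peSet Fermat.Agent.H28.neg_one_mem_parSet)
    (fun n => parSet_subset_peSet (Fermat.Agent.H28.T_pow_mem_parSet n))
    (fun q => by
      have h := Fermat.Agent.H28.neg_one_smul_coset N q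
      rw [← Fermat.Agent.H28.S_mul_S_eq_neg_one, mul_smul] at h
      exact h)
    (fun q => by
      have h := Fermat.Agent.H28.neg_one_smul_coset N q
      rw [← Fermat.Agent.H28.ST_cube_eq_neg_one, mul_smul, mul_smul] at h
      exact h)
    (peHoms k N)
    (fun φ hφ γ hγ => hφ γ hγ)
  rw [Fermat.Agent.H42.card_fixed_S, Fermat.Agent.H42.card_fixed_ST,
    Fermat.Agent.H73.card_orbits_T] at key
  have hidx : Nat.card (SL(2, ℤ) ⧸ Gamma0 N) = dedekindPsi N :=
    Fermat.Agent.H57.index_Gamma0 N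
  rw [hidx] at key
  exact key

/-- **H1-BOUND**. -/
theorem peBound (h2 : OrbitDimTwoStatement) (h3 : OrbitDimThreeStatement) :
    PEBoundStatement := by
  intro N _ k _
  obtain ⟨hfin, h⟩ := peHoms_bound h2 h3 N k
  refine ⟨hfin, ?_⟩
  have hdim := Fermat.Agent.H19.dim_formula N
  have h' : (6 * finrank k (peHoms k N)
      + 3 * nuTwo N + 4 * nuThree N + 6 * cuspCount N : ℚ) ≤ dedekindPsi N + 12 := by
    exact_mod_cast h
  have h3' : (finrank k (peHoms k N) : ℚ) ≤ 2 * (hgenus N : ℚ) := by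
    unfold hgenus
    rw [hdim]
    unfold genusFormula
    linarith
  exact_mod_cast h3'

end Fermat.Agent.H63.H1
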