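/-
P-H1 / H1-FINAL (helper63): `H₁(X₀(N), ℤ)` is torsion-free.

* `kummerCount`  : `#kummerChars N m = m ^ (2 g)`;
* `card_jTors_eq`: `#J₀(N)(ℚ̄)[m] = m ^ (2 g)`, `g = hgenus N = dim S₂(Γ₀(N))`;
* `hgenus_eq_genusFormula` : `(g : ℚ) = genusFormula N`;
* `exists_nsmul_eq_of_torsion` : the torsion of `J₀(N)(ℚ̄)` is divisible: if `m • x = 0`
  (`m > 0`) and `n > 0` then `x = n • y` with `(m * n) • y = 0`.

Pieces: H1-DIM2 (helper57), H1-DIM3 (helper75), H1-BOUND (helper63), H1-UP (helper46),
H1-RANK (helper53), H1-LOW (helper73), ES-A/ES-B (`card_jTors`, helper23 and team).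
-/
import Mathlib
import Fermat.Agent.H63.H1.Bound
import Fermat.Agent.H57.H1.OrbitDimTwo
import Fermat.Agent.H75.H1DimThree
import Fermat.Agent.H46.H1.KummerUpper
import Fermat.Agent.H53.H1.LatticeRank
import Fermat.Agent.H73.H1.KummerLower
import Fermat.Agent.H23.EsA.JTors

set_option autoImplicit false

open AlgebraicCurve CongruenceSubgroup Module

namespace Fermat.Agent.H63.H1

/-- **H1-BOUND**, unconditional. -/
theorem peBoundU : PEBoundStatement :=
  peBound Fermat.Agent.H57.H1.orbitDimTwo Fermat.Agent.H75.H1Dim.orbitDimThree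

/-- **H1-UP**, unconditional. -/
theorem kummerUpperU : KummerUpperStatement := Fermat.Agent.H46.H1.kummerUpper peBoundU

/-- **H1-LOW**, unconditional. -/
theorem kummerLowerU : KummerLowerStatement :=
  Fermat.Agent.H73.H1Low.kummerLower Fermat.Agent.H53.latticeRankStatement

/-- **H1 (main)**: `#Hom(H₁(X₀(N), ℤ), μ_m) = m ^ (2 g)`. -/
theorem kummerCount : KummerCountStatement := kummerCount_of kummerUpperU kummerLowerU

/-- The genus `g = dim S₂(Γ₀(N))` is given by the genus formula. -/
theorem hgenus_eq_genusFormula (N : ℕ) [NeZero N] :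
    (hgenus N : ℚ) = ModularCurve.genusFormula N :=
  Fermat.Agent.H19.dim_formula N

variable (N : ℕ) [NeZero N]

/-- **`#J₀(N)(ℚ̄)[m] = m ^ (2 g)`.** -/
theorem card_jTors_eq {m : ℕ} (hm : 0 < m) :
    Nat.card ↥(Pic0.torsion (AlgebraicClosure ℚ) ↥(ModularCurve.modularFunctionFieldBar N) m)
      = m ^ (2 * hgenus N) := by
  rw [Fermat.Agent.H23.EsA.card_jTors N hm]
  exact kummerCount N m hm

/-- Abstract counting lemma: if `#A[m] = m ^ r` for all `m > 0`, the torsion of `A` is
divisible. -/
theorem exists_nsmul_eq_of_card {A : Type*} [AddCommGroup A] (r : ℕ)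
    (hfin : ∀ m : ℕ, 0 < m → Finite {x : A // m • x = 0})
    (hcard : ∀ m : ℕ, 0 < m → Nat.card {x : A // m • x = 0} = m ^ r)
    {m n : ℕ} (hm : 0 < m) (hn : 0 < n) (x : A) (hx : m • x = 0) :
    ∃ y : A, n • y = x ∧ (m * n) • y = 0 := by
  classical
  have hmn : 0 < m * n := Nat.mul_pos hm hn
  have := hfin (m * n) hmn
  have := hfin m hm
  have := hfin n hn
  -- the map `y ↦ n • y` from `A[mn]` to `A[m]`
  let f : {y : A // (m * n) • y = 0} → {x : A // m • x = 0} := fun y =>
    ⟨n • (y : A), by rw [← mul_nsmul']; exact y.2⟩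
  -- its fibres have at most `#A[n]` elements
  have hfib : ∀ z : {x : A // m • x = 0},
      Nat.card {y : {y : A // (m * n) • y = 0} // f y = z} ≤ n ^ r := by
    intro z
    by_cases hne : Nonempty {y : {y : A // (m * n) • y = 0} // f y = z}
    · obtain ⟨⟨y₀, hy₀⟩⟩ := hne
      rw [← hcard n hn]
      let g : {y : {y : A // (m * n) • y = 0} // f y = z} → {x : A // n • x = 0} := fun y =>
        ⟨(y.1 : A) - (y₀ : A), by
          have h1 : n • (y.1 : A) = (z : A) := congrArg Subtype.val y.2
          have h2 : n • (y₀ : A) = (z : A) := congrArg Subtype.val hy₀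
          rw [nsmul_sub, h1, h2, sub_self]⟩
      have hg : Function.Injective g := by
        intro a b hab
        have h := congrArg Subtype.val hab
        simp only [g] at h
        have h' : (a.1 : A) = (b.1 : A) := by
          have := sub_left_injective h
          exact this
        exact Subtype.ext (Subtype.ext h')
      exact Nat.card_le_card_of_injective g hg
    · rw [not_nonempty_iff] at hne
      rw [Nat.card_of_isEmpty]
      exact Nat.zero_le _
  -- counting
  by_contra hcon
  have hcon' : ∀ y : {y : A // (m * n) • y = 0}, f y ≠ ⟨x, hx⟩ := by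
    intro y hy
    exact hcon ⟨(y : A), congrArg Subtype.val hy, y.2⟩
  have : Fintype {y : A // (m * n) • y = 0} := Fintype.ofFinite _
  have : Fintype {x : A // m • x = 0} := Fintype.ofFinite _
  have hsum : Fintype.card {y : A // (m * n) • y = 0}
      = ∑ z : {x : A // m • x = 0}, Fintype.card {y : {y : A // (m * n) • y = 0} // f y = z} := by
    rw [← Fintype.card_sigma]
    exact Fintype.card_congr (Equiv.sigmaFiberEquiv f).symm
  have hle : ∑ z : {x : A // m • x = 0},
      Fintype.card {y : {y : A // (m * n) • y = 0} // f y = z}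
      ≤ ∑ z ∈ (Finset.univ.erase (⟨x, hx⟩ : {x : A // m • x = 0})), n ^ r := by
    rw [← Finset.add_sum_erase Finset.univ _ (Finset.mem_univ (⟨x, hx⟩ : {x : A // m • x = 0}))]
    have h0 : Fintype.card {y : {y : A // (m * n) • y = 0} // f y = ⟨x, hx⟩} = 0 := by
      rw [Fintype.card_eq_zero_iff]
      exact ⟨fun y => hcon' y.1 y.2⟩
    rw [h0, zero_add]
    refine Finset.sum_le_sum fun z _ => ?_
    have := hfib z
    rwa [Nat.card_eq_fintype_card] at this
  rw [Finset.sum_const, Finset.card_erase_of_mem (Finset.mem_univ _), Finset.card_univ,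
    smul_eq_mul] at hle
  have h1 : Fintype.card {y : A // (m * n) • y = 0} = (m * n) ^ r := by
    rw [← Nat.card_eq_fintype_card]; exact hcard (m * n) hmn
  have h2 : Fintype.card {x : A // m • x = 0} = m ^ r := by
    rw [← Nat.card_eq_fintype_card]; exact hcard m hm
  rw [← hsum, h1, h2, mul_pow] at hle
  have hnr : 0 < n ^ r := pow_pos hn r
  have hmr : 0 < m ^ r := pow_pos hm r
  have : (m ^ r - 1) * n ^ r < m ^ r * n ^ r :=
    Nat.mul_lt_mul_of_pos_right (Nat.sub_lt hmr one_pos) hnr
  omega

/-- **The torsion of `J₀(N)(ℚ̄)` is divisible** (for every `n > 0`, in particular `n = 2, 3`). -/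
theorem exists_nsmul_eq_of_torsion {m n : ℕ} (hm : 0 < m) (hn : 0 < n)
    (x : ModularCurve.JZero N) (hx : m • x = 0) :
    ∃ y : ModularCurve.JZero N, n • y = x ∧ (m * n) • y = 0 := by
  have hequiv : ∀ k : ℕ, {x : ModularCurve.JZero N // k • x = 0}
      ≃ ↥(Pic0.torsion (AlgebraicClosure ℚ) ↥(ModularCurve.modularFunctionFieldBar N) k) :=
    fun k => Equiv.subtypeEquivRight fun x => by
      rw [Pic0.mem_torsion, natCast_zsmul]
  refine exists_nsmul_eq_of_card (2 * hgenus N) (fun k hk => ?_) (fun k hk => ?_) hm hn x hx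
  · have := Fermat.Agent.H23.EsA.finite_jTors N hk
    exact Finite.of_equiv _ (hequiv k).symm
  · rw [Nat.card_congr (hequiv k)]
    exact card_jTors_eq N hk

end Fermat.Agent.H63.H1
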